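import Mathlib

/-!
# S33/CECHP, part 1 : pure algebra for the Artin–Schreier Čech lemma   (helper22; Mathlib only)

* `asQ p t = ∑_{i<p-1} (C(p,i+1)/p) t^i`, `(1 + t)^p = 1 + p t Q(t) + t^p`, `Q(t) = 1 + t Q'(t)`;
* if `(1 + ϖ)^p = 1` then `ϖ^p = - p ϖ u`, `u = Q(ϖ)`; if moreover `(1 + ϖ Z)^p = 1 + ϖ^p X` then `u Z^p = Z Q(ϖ Z) + u X`
  and `u (Z^p - Z - X) = ϖ Z (Z Q'(ϖ Z) - Q'(ϖ))`;
* an integrality lemma, a determinant lemma, Cramer's rule.
-/

set_option autoImplicit false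

namespace Fermat.Agent.S33

open Finset

section Poly

variable {R : Type*} [CommRing R]

/-- `Q(t) = ∑_{i<p-1} (C(p,i+1)/p) t^i` -/
def asQ (p : ℕ) (t : R) : R := ∑ i ∈ range (p - 1), ((p.choose (i + 1) / p : ℕ) : R) * t ^ i

/-- `Q'(t) = ∑_{i<p-2} (C(p,i+2)/p) t^i` -/
def asQ' (p : ℕ) (t : R) : R := ∑ i ∈ range (p - 2), ((p.choose (i + 2) / p : ℕ) : R) * t ^ i

theorem one_add_pow_eq {p : ℕ} (hp : p.Prime) (t : R) :
    (1 + t) ^ p = 1 + p * t * asQ p t + t ^ p := by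
  obtain ⟨n, rfl⟩ : ∃ n, p = n + 1 := ⟨p - 1, by have := hp.pos; omega⟩
  rw [add_comm 1 t, add_pow, sum_range_succ, sum_range_succ']
  simp only [one_pow, mul_one, pow_zero, Nat.choose_zero_right, Nat.cast_one, Nat.choose_self,
    Nat.sub_self]
  have : ∑ k ∈ range n, t ^ (k + 1) * ((n + 1).choose (k + 1) : R) =
      ((n + 1 : ℕ) : R) * t * asQ (n + 1) t := by
    unfold asQ
    rw [Nat.add_sub_cancel, mul_sum]
    refine sum_congr rfl fun k hk => ?_
    have hk' := mem_range.mp hk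
    have hd : (n + 1) ∣ (n + 1).choose (k + 1) :=
      hp.dvd_choose_self (Nat.succ_ne_zero k) (by omega)
    obtain ⟨e, he⟩ := hd
    rw [he, Nat.mul_div_cancel_left _ hp.pos]
    push_cast
    ring
  rw [this]
  ring

theorem asQ_eq {p : ℕ} (hp : p.Prime) (t : R) : asQ p t = 1 + t * asQ' p t := by
  obtain ⟨n, rfl⟩ : ∃ n, p = n + 2 := ⟨p - 2, by have := hp.two_le; omega⟩
  unfold asQ asQ'
  rw [show n + 2 - 1 = n + 1 by omega, show n + 2 - 2 = n by omega, sum_range_succ', mul_sum]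
  simp only [zero_add, Nat.choose_one_right, pow_zero, mul_one]
  rw [Nat.div_self (by omega), Nat.cast_one, add_comm]
  congr 1
  refine sum_congr rfl fun k _ => ?_
  rw [pow_succ]
  ring

theorem map_asQ {S : Type*} [CommRing S] (f : R →+* S) (p : ℕ) (t : R) :
    f (asQ p t) = asQ p (f t) := by
  unfold asQ
  rw [map_sum]
  exact sum_congr rfl fun i _ => by rw [map_mul, map_natCast, map_pow]

theorem map_asQ' {S : Type*} [CommRing S] (f : R →+* S) (p : ℕ) (t : R) :
    f (asQ' p t) = asQ' p (f t) := by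
  unfold asQ'
  rw [map_sum]
  exact sum_congr rfl fun i _ => by rw [map_mul, map_natCast, map_pow]

theorem asQ_mem (S : Subring R) (p : ℕ) {t : R} (ht : t ∈ S) : asQ p t ∈ S :=
  S.sum_mem fun _ _ => S.mul_mem (natCast_mem S _) (S.pow_mem ht _)

theorem asQ'_mem (S : Subring R) (p : ℕ) {t : R} (ht : t ∈ S) : asQ' p t ∈ S :=
  S.sum_mem fun _ _ => S.mul_mem (natCast_mem S _) (S.pow_mem ht _)

/-- `ϖ^p = - p ϖ u` -/
theorem as_pi_pow {p : ℕ} (hp : p.Prime) {ϖ : R} (h : (1 + ϖ) ^ p = 1) :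
    ϖ ^ p = -(p * ϖ * asQ p ϖ) := by
  rw [one_add_pow_eq hp] at h
  linear_combination h

variable [IsDomain R]

/-- the Artin–Schreier equation -/
theorem as_eq {p : ℕ} (hp : p.Prime) {ϖ Z X : R} (h : (1 + ϖ) ^ p = 1) (h0 : (p : R) * ϖ ≠ 0)
    (hZ : (1 + ϖ * Z) ^ p = 1 + ϖ ^ p * X) :
    asQ p ϖ * Z ^ p = Z * asQ p (ϖ * Z) + asQ p ϖ * X := by
  have h1 := as_pi_pow hp h
  rw [one_add_pow_eq hp, mul_pow, h1] at hZ
  apply mul_left_cancel₀ h0
  linear_combination -hZ

theorem as_eq' {p : ℕ} (hp : p.Prime) {ϖ Z X : R} (h : (1 + ϖ) ^ p = 1) (h0 : (p : R) * ϖ ≠ 0)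
    (hZ : (1 + ϖ * Z) ^ p = 1 + ϖ ^ p * X) :
    asQ p ϖ * (Z ^ p - Z - X) = ϖ * (Z * (Z * asQ' p (ϖ * Z) - asQ' p ϖ)) := by
  have h1 := as_eq hp h h0 hZ
  rw [asQ_eq hp (ϖ * Z)] at h1
  have h2 := asQ_eq hp ϖ
  linear_combination h1 - Z * h2

end Poly

section Integral

open Polynomial

/-- `z^p = z ∑_{i<p-1} c_i z^i + x` with integral `c_i`, `x` ⟹ `z` integral -/
theorem isIntegralElem_of_as {R S : Type*} [CommRing R] [CommRing S] (f : R →+* S) (z : S) {p : ℕ}
    (hp : 0 < p) (c : ℕ → S) (x : S) (hc : ∀ i, f.IsIntegralElem (c i)) (hx : f.IsIntegralElem x)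
    (h : z ^ p = z * ∑ i ∈ range (p - 1), c i * z ^ i + x) : f.IsIntegralElem z := by
  let _ := f.toAlgebra
  let c' : ℕ → integralClosure R S := fun i => ⟨c i, hc i⟩
  let x' : integralClosure R S := ⟨x, hx⟩
  let q : (integralClosure R S)[X] := -(∑ i ∈ range (p - 1), C (c' i) * X ^ (i + 1) + C x')
  have hq : q.degree < p := by
    rw [← mem_degreeLT]
    refine Submodule.neg_mem _ (Submodule.add_mem _ (Submodule.sum_mem _ fun i hi => ?_) ?_)
    · rw [mem_degreeLT]
      refine lt_of_le_of_lt (degree_C_mul_X_pow_le _ _) ?_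
      have := mem_range.mp hi
      exact_mod_cast (by omega : i + 1 < p)
    · rw [mem_degreeLT]
      exact lt_of_le_of_lt degree_C_le (by exact_mod_cast hp)
  have h1 : IsIntegral (integralClosure R S) z := by
    refine ⟨X ^ p + q, monic_X_pow_add hq, ?_⟩
    simp only [q, eval₂_add, eval₂_pow, eval₂_X, eval₂_neg, eval₂_finset_sum, eval₂_mul, eval₂_C]
    rw [h, mul_sum]
    have : ∀ i, algebraMap (integralClosure R S) S (c' i) = c i := fun _ => rfl
    have hx' : algebraMap (integralClosure R S) S x' = x := rfl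
    simp only [this, hx']
    have e : ∑ i ∈ range (p - 1), z * (c i * z ^ i) = ∑ i ∈ range (p - 1), c i * z ^ (i + 1) :=
      sum_congr rfl fun i _ => by ring
    rw [e]
    ring
  exact isIntegral_trans (R := R) (A := integralClosure R S) z h1

end Integral

section Det

variable {R : Type*} [CommRing R]

/-- a matrix which is upper triangular modulo `I` with diagonal `≡ -1` -/
theorem det_sub_neg_one_pow_mem (I : Ideal R) {n : ℕ} (M : Matrix (Fin n) (Fin n) R)
    (h1 : ∀ i j, j < i → M i j ∈ I) (h2 : ∀ i, M i i + 1 ∈ I) : M.det - (-1) ^ n ∈ I := by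
  rw [← Ideal.Quotient.eq_zero_iff_mem, map_sub, map_pow, map_neg, map_one, sub_eq_zero,
    RingHom.map_det]
  have ht : ((Ideal.Quotient.mk I).mapMatrix M).BlockTriangular id := by
    intro i j hij
    rw [RingHom.mapMatrix_apply, Matrix.map_apply]
    exact Ideal.Quotient.eq_zero_iff_mem.mpr (h1 i j hij)
  rw [Matrix.det_of_upperTriangular ht]
  have : ∀ i, (Ideal.Quotient.mk I).mapMatrix M i i = -1 := by
    intro i
    rw [RingHom.mapMatrix_apply, Matrix.map_apply]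
    have := Ideal.Quotient.eq_zero_iff_mem.mpr (h2 i)
    rw [map_add, map_one] at this
    exact eq_neg_of_add_eq_zero_left this
  simp only [this]
  simp

/-- Cramer's rule -/
theorem det_mul_eq_of_mulVec {n : Type*} [Fintype n] [DecidableEq n] (M : Matrix n n R)
    (x t : n → R) (h : M.mulVec x = t) (l : n) : M.det * x l = ∑ j, M.adjugate l j * t j := by
  have h1 : M.adjugate.mulVec t = M.det • x := by
    rw [← h, Matrix.mulVec_mulVec, Matrix.adjugate_mul, Matrix.smul_mulVec, Matrix.one_mulVec]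
  have h2 := congrFun h1 l
  rw [Pi.smul_apply, smul_eq_mul] at h2
  rw [← h2]
  rfl

end Det

end Fermat.Agent.S33
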