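import Fermat.Agent.S34.T.Cech
import Fermat.Agent.S33.Abs.ASPoly

/-!
# S33/CECHP, part 2 : `ONB.as`, `fgBar_as`   (helper22)

`E / F` of degree `p` with a power basis `Z^l`, `Z ∈ C0(E)`, `Tr(Z^m) ∈ 𝔪` for `m < p - 1`, `Tr(Z^(p-1)) ≡ -1`, `p` odd.
The matrix `M j l = Tr(Z^(l + (p-1-j)))` is upper triangular modulo `𝔪` with diagonal `-1`, so `δ = det M ≡ -1`, and
`δ x_l = ∑_j adj(M)_{lj} Tr(x Z^(p-1-j))`.
-/

set_option autoImplicit false
set_option linter.unusedSectionVars false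

noncomputable section

namespace Fermat.Agent.S33

open Polynomial Fermat.Agent.S18.KL Fermat.Agent.S34.T

variable {K : Type*} [Field K] {A : ValuationSubring K}
variable {L : Type*} [Field L] [Algebra K L] {τ : L}
variable {F : Type*} [Field F] [Algebra L F] [FiniteDimensional L F]
variable {E : Type*} [Field E] [Algebra L E] [Algebra F E] [IsScalarTower L F E]

/-- the trace matrix -/
def asM (F : Type*) [Field F] {E : Type*} [Field E] [Algebra F E] (p : ℕ) (Z : E) :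
    Matrix (Fin p) (Fin p) F :=
  fun j l => Algebra.trace F E (Z ^ ((l : ℕ) + (p - 1 - (j : ℕ))))

omit [Algebra L F] [FiniteDimensional L F] [Algebra L E] [IsScalarTower L F E] in
theorem asM_mulVec {p : ℕ} {Z : E} (bZ : Module.Basis (Fin p) F E) (hbZ : ∀ l, bZ l = Z ^ (l : ℕ))
    (x : E) : (asM F p Z).mulVec (fun l => bZ.repr x l) =
      fun j : Fin p => Algebra.trace F E (x * Z ^ (p - 1 - (j : ℕ))) := by
  funext j
  conv_rhs => rw [← bZ.sum_repr x, Finset.sum_mul, map_sum]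
  rw [Matrix.mulVec, dotProduct]
  refine Finset.sum_congr rfl fun l _ => ?_
  rw [smul_mul_assoc, map_smul, hbZ, ← pow_add, smul_eq_mul, mul_comm]
  rfl

section

variable {p : ℕ} {Z : E} (hodd : Odd p) (hZ : Z ∈ C0 A τ E)
  (h1 : ∀ m, m < p - 1 → Sm0 A τ F (Algebra.trace F E (Z ^ m)))
  (h2 : Sm0 A τ F (Algebra.trace F E (Z ^ (p - 1)) + 1))

include hZ in
theorem asM_mem [FiniteDimensional F E] (j l : Fin p) : asM F p Z j l ∈ C0 A τ F :=
  trace_mem_C0_aux ((C0 A τ E).pow_mem hZ _)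

include hodd hZ h1 h2 in
theorem as_det [FiniteDimensional F E] :
    (asM F p Z).det ∈ C0 A τ F ∧ Sm0 A τ F (-(asM F p Z).det - 1) := by
  let M' : Matrix (Fin p) (Fin p) (C0 A τ F) := fun j l => ⟨asM F p Z j l, asM_mem hZ j l⟩
  have hM : asM F p Z = (C0 A τ F).subtype.mapMatrix M' := by ext; rfl
  have hd : (asM F p Z).det = ((M'.det : C0 A τ F) : F) := by
    rw [hM, ← RingHom.map_det]; rfl
  have h3 : M'.det - (-1) ^ p ∈ mC0 A τ F := by
    refine det_sub_neg_one_pow_mem _ M' (fun j l hlj => ?_) (fun j => ?_)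
    · rw [mem_mC0]
      refine h1 _ ?_
      have h4 : (l : ℕ) < j := hlj
      have := j.2
      omega
    · rw [mem_mC0]
      have e : (j : ℕ) + (p - 1 - (j : ℕ)) = p - 1 := by have := j.2; omega
      show Sm0 A τ F (Algebra.trace F E (Z ^ ((j : ℕ) + (p - 1 - (j : ℕ)))) + 1)
      rw [e]
      exact h2
  rw [hodd.neg_one_pow, mem_mC0] at h3
  refine ⟨by rw [hd]; exact M'.det.2, ?_⟩
  have h4 := Sm0.neg A h3
  convert h4 using 1
  rw [hd]
  push_cast
  ring

include hZ in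
theorem as_key_C0 [FiniteDimensional F E] (bZ : Module.Basis (Fin p) F E)
    (hbZ : ∀ l, bZ l = Z ^ (l : ℕ)) {x : E} (hx : x ∈ C0 A τ E) (l : Fin p) :
    (asM F p Z).det * bZ.repr x l ∈ C0 A τ F := by
  rw [det_mul_eq_of_mulVec _ _ _ (asM_mulVec bZ hbZ x) l]
  exact (C0 A τ F).sum_mem fun j _ => (C0 A τ F).mul_mem
    (adjugate_mem_subring _ _ (asM_mem hZ) l j)
    (trace_mem_C0_aux ((C0 A τ E).mul_mem hx ((C0 A τ E).pow_mem hZ _)))

include hZ in
theorem as_key_VV [FiniteDimensional F E] (hτ : Transcendental K τ)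
    (bZ : Module.Basis (Fin p) F E)
    (hbZ : ∀ l, bZ l = Z ^ (l : ℕ)) {x : E} (hx : x ∈ VV A τ E) (l : Fin p) :
    (asM F p Z).det * bZ.repr x l ∈ VV A τ F := by
  rw [det_mul_eq_of_mulVec _ _ _ (asM_mulVec bZ hbZ x) l]
  exact (VV A τ F).sum_mem fun j _ => (VV A τ F).mul_mem
    (C0_le_VV A τ F (adjugate_mem_subring _ _ (asM_mem hZ) l j))
    (trace_mem_VV_aux hτ ((VV A τ E).mul_mem hx ((VV A τ E).pow_mem (C0_le_VV A τ E hZ) _)))

include hodd hZ h1 h2 in
/-- the orthonormal basis `β_i Z^l` -/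
theorem ONB.as (hτ : Transcendental K τ) (hgen : IsGen K τ) {ι : Type*} [Fintype ι]
    (o : ONB A τ F ι) (bZ : Module.Basis (Fin p) F E) (hbZ : ∀ l, bZ l = Z ^ (l : ℕ)) :
    ∃ o' : ONB A τ E (ι × Fin p), o'.β = o.β.smulTower bZ := by
  have hFE : FiniteDimensional F E := Module.Finite.of_basis bZ
  obtain ⟨hd0, hd1⟩ := as_det hodd hZ h1 h2
  have hinv := (o.inv_mem_VV hτ hgen hd1.SmV).1
  have hne : -(asM F p Z).det ≠ 0 := ne_zero_of_SmV_sub_one hτ hgen hd1.SmV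
  refine ⟨⟨o.β.smulTower bZ, ?_, ?_⟩, rfl⟩
  · rintro ⟨i, a⟩
    rw [Module.Basis.smulTower_apply, hbZ, Algebra.smul_def]
    exact (VV A τ E).mul_mem (algebraMap_mem_VV_of_mem (o.mem i))
      ((VV A τ E).pow_mem (C0_le_VV A τ E hZ) _)
  · rintro x hx ⟨i, c⟩
    rw [Module.Basis.smulTower_repr]
    refine o.repr_mem _ ?_ i
    simp only
    have hne' : (asM F p Z).det ≠ 0 := neg_ne_zero.mp hne
    have e : bZ.repr x c = -((-(asM F p Z).det)⁻¹ * ((asM F p Z).det * bZ.repr x c)) := by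
      rw [inv_neg, neg_mul, neg_neg, ← mul_assoc, inv_mul_cancel₀ hne', one_mul]
    rw [e]
    exact (VV A τ F).neg_mem ((VV A τ F).mul_mem hinv (as_key_VV hZ hτ bZ hbZ hx c))

end

/-- `FgBar` for an extension with a power basis and a denominator `d ≡ 1` (second half of `fgBar_kummer`) -/
theorem fgBar_of_powerBasis (hfg : FgBar A τ F) {p : ℕ} (d : F) (hd1 : Sm0 A τ F (d - 1))
    (y : E) (hyC : y ∈ C0 A τ E) (b : Module.Basis (Fin p) F E) (hb : ∀ a, b a = y ^ (a : ℕ))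
    (key : ∀ x ∈ C0 A τ E, ∀ l : Fin p, d * b.repr x l ∈ C0 A τ F) : FgBar A τ E := by
  classical
  obtain ⟨G, hG, hspan⟩ := hfg
  refine fgBar_of_family (κ := ↥G × Fin p)
    (fun gl => algebraMap F E (gl.1 : F) * y ^ (gl.2 : ℕ)) ?_ ?_
  · rintro ⟨g, l⟩
    exact (C0 A τ E).mul_mem (algebraMap_mem_C0_of_mem (hG g g.2)) ((C0 A τ E).pow_mem hyC _)
  · intro x hx
    choose c hc using fun l => hspan _ (key x hx l)
    refine ⟨fun gl => c gl.2 gl.1, ?_⟩
    have h1 : Sm0 A τ E (x - algebraMap F E d * x) := by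
      have := Sm0.neg A (Sm0.mul_left A (Sm0_algebraMap_of_Sm0 (E := E) hd1) hx)
      convert this using 1
      rw [map_sub, map_one]
      ring
    have h3 : Sm0 A τ E (∑ l : Fin p, algebraMap F E
        (d * b.repr x l - ∑ g ∈ G, evE A τ F (c l g) * g) * y ^ (l : ℕ)) := by
      refine Sm0_sum_aux _ _ fun l _ => ?_
      rw [mul_comm]
      exact Sm0.mul_left A (Sm0_algebraMap_of_Sm0 (hc l)) ((C0 A τ E).pow_mem hyC _)
    convert Sm0.add A h1 h3 using 1
    have h4 : algebraMap F E d * x = ∑ l : Fin p, algebraMap F E (d * b.repr x l) * y ^ (l : ℕ) := by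
      conv_lhs => rw [← b.sum_repr x, Finset.mul_sum]
      refine Finset.sum_congr rfl fun l _ => ?_
      rw [hb, Algebra.smul_def, map_mul, mul_assoc]
    have h5 : ∑ gl : ↥G × Fin p, evE A τ E (c gl.2 gl.1) * (algebraMap F E (gl.1 : F) * y ^ (gl.2 : ℕ)) =
        ∑ l : Fin p, algebraMap F E (∑ g ∈ G, evE A τ F (c l g) * g) * y ^ (l : ℕ) := by
      rw [Fintype.sum_prod_type_right]
      refine Finset.sum_congr rfl fun l _ => ?_
      rw [map_sum, Finset.sum_mul, ← Finset.sum_coe_sort G]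
      refine Finset.sum_congr rfl fun g _ => ?_
      rw [map_mul, ← evE_eq_algebraMap_evE, mul_assoc]
    have h6 : ∑ l : Fin p, algebraMap F E
        (d * b.repr x l - ∑ g ∈ G, evE A τ F (c l g) * g) * y ^ (l : ℕ) =
        ∑ l : Fin p, algebraMap F E (d * b.repr x l) * y ^ (l : ℕ) -
          ∑ l : Fin p, algebraMap F E (∑ g ∈ G, evE A τ F (c l g) * g) * y ^ (l : ℕ) := by
      rw [← Finset.sum_sub_distrib]
      refine Finset.sum_congr rfl fun l _ => ?_
      rw [map_sub, sub_mul]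
    rw [h5, h6, ← h4]
    ring

theorem fgBar_as (hfg : FgBar A τ F) {p : ℕ} {Z : E} (hodd : Odd p) (hZ : Z ∈ C0 A τ E)
    (h1 : ∀ m, m < p - 1 → Sm0 A τ F (Algebra.trace F E (Z ^ m)))
    (h2 : Sm0 A τ F (Algebra.trace F E (Z ^ (p - 1)) + 1))
    (bZ : Module.Basis (Fin p) F E) (hbZ : ∀ l, bZ l = Z ^ (l : ℕ)) : FgBar A τ E := by
  have hFE : FiniteDimensional F E := Module.Finite.of_basis bZ
  obtain ⟨hd0, hd1⟩ := as_det hodd hZ h1 h2
  refine fgBar_of_powerBasis hfg (-(asM F p Z).det) hd1 Z hZ bZ hbZ fun x hx l => ?_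
  rw [neg_mul]
  exact (C0 A τ F).neg_mem (as_key_C0 hZ bZ hbZ hx l)

end Fermat.Agent.S33
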