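import Fermat.Agent.S34.T.Main
import Fermat.Agent.S33.Abs.ASBasis

/-!
# S33/CECHP : the Artin–Schreier analogue of `S34.T.cech_prime`  (abstract; residue characteristic `p`)      key `S33/CECHP`

Setting of `S34/T/Cech.lean` (`K` algebraically closed, `A` a valuation ring, `F / L = K(τ)` finite, `o : ONB A τ F ι`, `FgBar A τ F`),
but now `p ∈ 𝔪_A`.  `ζ` a primitive `p`-th root of unity, `ϖ = ζ - 1 ∈ 𝔪_A`  (`v(ϖ) = 1/(p-1)`, `p / ϖ^(p-1) ≡ -1`).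
`CongV a x` : `x ∈ a VV`.

**Theorem `cech_p`.**  `c' ∈ 𝔪`, `v ≡ 1 (ϖ^p c')`, `f₀, f₁ ≡ 1 (ϖ c')`, `f₀^p v ∈ C0(τ)`, `f₁^p v ∈ C0(τ⁻¹)`  ⟹  `v = g^p`.

## Proof
Suppose not.  `c₀ = f₀^p v`, `c₁ = f₁^p v`, `w = f₁ / f₀ ≡ 1 (ϖ c')` (`ONB.inv_mem_VV`).
(a) `(1 + ϖ c' y)^p ≡ 1 (ϖ^p c')`  [`p ϖ c'`, …, `ϖ^p c'^p` are all divisible by `ϖ^p c'`; `p = ϖ^(p-1) · unit`].  So `c₀ = 1 + ϖ^p c' x₀`, `x₀ ∈ VV`; `x₀ ∈ C0(τ)`
    because `c₀ - 1 ∈ C0` and `C0 = B0 ∩ VV` (`mem_C0_of_mem_B0_VV`).  Same for `c₁`, `x₁ ∈ C0(τ⁻¹)`.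
(b) `X^p - c₀` is irreducible (`X_pow_sub_C_irreducible_of_prime`), `E = F(Y)`, `Y^p = c₀`, basis `Y^a`, as in `cech_prime`/`cech_core`.
    `Z₀ := (Y - 1)/ϖ`.  From `(1 + ϖ Z₀)^p = 1 + ϖ^p c' x₀`:   `Z₀^p + ∑_{0<i<p} a_i Z₀^i = c' x₀`,  `a_i = C(p,i) ϖ^(i-p) ∈ A`, `a_1 = p/ϖ^(p-1) ≡ -1`, `a_i ∈ 𝔪` for `1 < i < p`.
    So `Z₀ ∈ C0(τ, E)` and `Sm0 (Z₀^p - Z₀)`.   `Y₁ = w Y`, `Y₁^p = c₁`, `Z₁ = (Y₁ - 1)/ϖ ∈ C0(τ⁻¹, E)`, `Sm0 (Z₁^p - Z₁)`;   `Z₁ - Z₀ = ((w - 1)/ϖ) Y` is `SmV`.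
(c) traces: `Tr_{E/F}(Y^a) = 0` for `0 < a < p`, `Tr 1 = p` (`KL.trace_mul_pow_zero/pos`, `S18/Z/Kummer.lean`), hence for `m ≤ p - 1`:
    `Tr(Z₀^m) = (-1)^m p / ϖ^m`:  in `𝔪` for `m < p - 1`,  `≡ -1` for `m = p - 1` (`p` odd).  `Tr(Z₀^m) ∈ C0(F)` for all `m` (`trace_mem_C0_aux`).
(d) the matrix `T = (Tr(Z₀^(l+j)))_{l,j<p}` has entries in `C0(F)`, is `0` mod `𝔪` above the antidiagonal and `-1` on it: `δ := det T ≡ ± 1` mod `𝔪 C0(F)`
    (reverse the columns, map to the quotient, `Matrix.det_of_lowerTriangular`).   For `x = ∑ x_l Z₀^l ∈ E`:  `Tr(x Z₀^j) = ∑_l T_{lj} x_l`, so `δ x_l = ∑_j adj(T)_{..} Tr(x Z₀^j)`.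
    ⟹ `ONB.as`: `x ∈ VV(E) ⟹ x_l ∈ VV(F)` (`δ` is a unit of `VV(F)`, `ONB.inv_mem_VV`), so `o.β.smulTower (Z₀^l)` is an `ONB` of `E`   [model: `ONB.kummer`];
    ⟹ `fgBar_as`: `x ∈ C0(E) ⟹ δ x_l ∈ C0(F)`, `x ≡ ± δ x`, so `FgBar A τ E`   [model: `fgBar_kummer`].
(e) `exists_wbasis`, `WBasis.fgC0`, then `conn` for `ε_i = 1 - Z_i^(p-1)`  (`ε_i² - ε_i = Z_i^(p-2) (Z_i^p - Z_i)` is `Sm0`; `ε₀ - ε₁` is `SmV` by `SmV_pow_sub_pow`):
    `Sm0 ε₀` or `Sm0 (ε₀ - 1)`.  Apply `Tr_{E/F}` (maps `𝔪 VV(E)` to `𝔪 VV(F)`):  `Tr ε₀ = p - Tr(Z₀^(p-1)) ≡ 1`,  `Tr(ε₀ - 1) = - Tr(Z₀^(p-1)) ≡ 1`: contradiction with `not_SmV_one`.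
-/

set_option autoImplicit false
set_option linter.unusedSectionVars false
set_option linter.unusedVariables false

noncomputable section

namespace Fermat.Agent.S33

open Polynomial Fermat.Agent.S18.KL Fermat.Agent.S34.T

section

variable {K : Type*} [Field K] (A : ValuationSubring K)
variable {L : Type*} [Field L] [Algebra K L] (τ : L)
variable (E : Type*) [Field E] [Algebra L E]

/-- `x ∈ a VV` -/
def CongV (a : A) (x : E) : Prop := ∃ y ∈ VV A τ E, x = evE A τ E (C a) * y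

end

section Const

variable {K : Type*} [Field K] (A : ValuationSubring K)
variable (L : Type*) [Field L] [Algebra K L]
variable (E : Type*) [Field E] [Algebra L E]

/-- the constants (independent of the chart) -/
def jj : A →+* E := (algebraMap L E).comp ((algebraMap K L).comp A.subtype)

variable {A L E}

theorem evE_C_eq (θ : L) (a : A) : evE A θ E (C a) = jj A L E a := SatB.evE_C A a

theorem jj_injective : Function.Injective (jj A L E) :=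
  (algebraMap L E).injective.comp ((algebraMap K L).injective.comp Subtype.val_injective)

theorem jj_mem_C0 (θ : L) (a : A) : jj A L E a ∈ C0 A θ E := by
  rw [← evE_C_eq θ]; exact evE_mem_C0 A θ E _

theorem jj_mem_VV (θ : L) (a : A) : jj A L E a ∈ VV A θ E := C0_le_VV A θ E (jj_mem_C0 θ a)

theorem Sm0_jj_mul (θ : L) {a : A} (ha : a ∈ IsLocalRing.maximalIdeal A) {y : E}
    (hy : y ∈ C0 A θ E) : Sm0 A θ E (jj A L E a * y) := ⟨a, ha, y, hy, by rw [evE_C_eq]⟩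

theorem SmV_jj_mul (θ : L) {a : A} (ha : a ∈ IsLocalRing.maximalIdeal A) {y : E}
    (hy : y ∈ VV A θ E) : SmV A θ E (jj A L E a * y) := ⟨a, ha, y, hy, by rw [evE_C_eq]⟩

theorem algebraMap_jj {F : Type*} [Field F] [Algebra L F] [Algebra F E] [IsScalarTower L F E]
    (a : A) : algebraMap F E (jj A L F a) = jj A L E a := by
  unfold jj
  simp only [RingHom.comp_apply]
  rw [← IsScalarTower.algebraMap_apply L F E]

/-- `a y ∈ C0`, `y ∈ VV`, `a ≠ 0` ⟹ `y ∈ C0` -/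
theorem mem_C0_of_jj_mul {θ : L} (hθ : Transcendental K θ) {a : A} (ha : a ≠ 0) {y : E}
    (h1 : jj A L E a * y ∈ C0 A θ E) (h2 : y ∈ VV A θ E) : y ∈ C0 A θ E := by
  refine SatB.mem_C0_of_mem_B0_VV A hθ ?_ h2
  have haK : (a : K) ≠ 0 := by exact_mod_cast ha
  have h3 : y = algebraMap L E (algebraMap K L (a : K)⁻¹) * (jj A L E a * y) := by
    unfold jj
    simp only [RingHom.comp_apply, ValuationSubring.subtype_apply]
    rw [← mul_assoc, ← map_mul, ← map_mul, inv_mul_cancel₀ haK, map_one, map_one, one_mul]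
  rw [h3]
  exact (B0 K θ E).mul_mem (SatB.const_mem_B0 _) (SatB.C0_le_B0 A h1)

end Const

variable {K : Type*} [Field K] {A : ValuationSubring K}

/-- the data `ϖ = ζ - 1` -/
structure PiData (A : ValuationSubring K) (p : ℕ) (ϖ : A) : Prop where
  prime : p.Prime
  pow : (1 + ϖ) ^ p = 1
  ne : (p : A) * ϖ ≠ 0
  mem : ϖ ∈ IsLocalRing.maximalIdeal A

namespace PiData

variable {p : ℕ} {ϖ : A} (D : PiData A p ϖ)

include D

theorem exists_inv : ∃ ui : A, asQ p ϖ * ui = 1 := by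
  have hu : IsUnit (asQ p ϖ) := by
    by_contra h
    have h1 : asQ p ϖ ∈ IsLocalRing.maximalIdeal A := (IsLocalRing.mem_maximalIdeal _).mpr h
    have h2 : (1 : A) ∈ IsLocalRing.maximalIdeal A := by
      have e : (1 : A) = asQ p ϖ - asQ' p ϖ * ϖ := by rw [asQ_eq D.prime]; ring
      rw [e]
      exact Ideal.sub_mem _ h1 (Ideal.mul_mem_left _ _ D.mem)
    exact (Ideal.ne_top_iff_one _).mp (IsLocalRing.maximalIdeal.isMaximal A).ne_top h2
  obtain ⟨v, hv⟩ := hu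
  exact ⟨(v⁻¹ : Aˣ), by rw [← hv]; exact v.mul_inv⟩

theorem pi_ne : ϖ ≠ 0 := fun h => D.ne (by rw [h, mul_zero])

/-- `p = - ϖ^(p-1) u⁻¹` -/
theorem natCast_eq {ui : A} (hui : asQ p ϖ * ui = 1) : (p : A) = -(ϖ ^ (p - 1) * ui) := by
  have h1 := as_pi_pow D.prime D.pow
  have h2 : ϖ ^ p = ϖ ^ (p - 1) * ϖ := by
    rw [← pow_succ, Nat.sub_add_cancel D.prime.pos]
  rw [h2] at h1
  have h3 : ϖ ^ (p - 1) = -(p * asQ p ϖ) :=
    mul_right_cancel₀ D.pi_ne (by linear_combination h1)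
  rw [h3]
  linear_combination (-(p : A)) * hui

end PiData

variable {L : Type*} [Field L] [Algebra K L] {τ : L}

section Mem

variable {E : Type*} [Field E] [Algebra L E]

/-- (b): integrality of `Z` and the Artin–Schreier congruence, on any chart -/
theorem as_mem {p : ℕ} {ϖ : A} (D : PiData A p ϖ) (θ : L) {c' : A}
    (hc' : c' ∈ IsLocalRing.maximalIdeal A) {Z X : E} (hX : X ∈ C0 A θ E)
    (hZ : (1 + jj A L E ϖ * Z) ^ p = 1 + jj A L E ϖ ^ p * (jj A L E c' * X)) :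
    Z ∈ C0 A θ E ∧ Sm0 A θ E (Z ^ p - Z) := by
  obtain ⟨ui, hui⟩ := D.exists_inv
  set π : E := jj A L E ϖ with hπ
  have hπ1 : (1 + π) ^ p = 1 := by
    rw [hπ, ← map_one (jj A L E), ← map_add, ← map_pow, D.pow]
  have hπ0 : (p : E) * π ≠ 0 := by
    have : (p : E) * π = jj A L E ((p : A) * ϖ) := by rw [map_mul, map_natCast]
    rw [this]
    exact fun h => D.ne (jj_injective (by rw [h, map_zero]))
  have hu : asQ p π * jj A L E ui = 1 := by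
    rw [hπ, ← map_asQ, ← map_mul, hui, map_one]
  have e1 := as_eq D.prime hπ1 hπ0 hZ
  have e2 := as_eq' D.prime hπ1 hπ0 hZ
  have hmem : Z ∈ C0 A θ E := by
    refine isIntegralElem_of_as (evE A θ E) Z D.prime.pos
      (fun i => jj A L E ui * (((p.choose (i + 1) / p : ℕ) : E) * π ^ i)) (jj A L E c' * X)
      (fun i => (C0 A θ E).mul_mem (jj_mem_C0 θ _)
        ((C0 A θ E).mul_mem (natCast_mem _ _) ((C0 A θ E).pow_mem (jj_mem_C0 θ _) _)))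
      ((C0 A θ E).mul_mem (jj_mem_C0 θ _) hX) ?_
    have e3 : ∑ i ∈ Finset.range (p - 1),
        jj A L E ui * (((p.choose (i + 1) / p : ℕ) : E) * π ^ i) * Z ^ i =
        jj A L E ui * asQ p (π * Z) := by
      unfold asQ
      rw [Finset.mul_sum]
      refine Finset.sum_congr rfl fun i _ => ?_
      rw [mul_pow]; ring
    rw [e3]
    linear_combination (jj A L E ui) * e1 - (Z ^ p - jj A L E c' * X) * hu
  refine ⟨hmem, ?_⟩
  have e4 : Z ^ p - Z = jj A L E c' * X +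
      π * (jj A L E ui * (Z * (Z * asQ' p (π * Z) - asQ' p π))) := by
    linear_combination (jj A L E ui) * e2 - (Z ^ p - Z - jj A L E c' * X) * hu
  rw [e4]
  refine Sm0.add A (Sm0_jj_mul θ hc' hX) (Sm0_jj_mul θ D.mem ?_)
  have hπC : π ∈ C0 A θ E := jj_mem_C0 θ _
  exact (C0 A θ E).mul_mem (jj_mem_C0 θ _) ((C0 A θ E).mul_mem hmem
    ((C0 A θ E).sub_mem ((C0 A θ E).mul_mem hmem (asQ'_mem _ p ((C0 A θ E).mul_mem hπC hmem)))
      (asQ'_mem _ p hπC)))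

end Mem

section Trace

variable {F : Type*} [Field F] [Algebra L F]
variable {E : Type*} [Field E] [Algebra L E] [Algebra F E] [IsScalarTower L F E]

/-- (c): `ϖ^m Tr(Z^m) = (-1)^m p` for `m < p` -/
theorem as_trace_aux {p : ℕ} (hp : 0 < p) {ϖ : A} {c₀ : F} {y Z : E}
    (hy : y ^ p = algebraMap F E c₀)
    (b : Module.Basis (Fin p) F E) (hb : ∀ a, b a = y ^ (a : ℕ))
    (hyZ : y = 1 + jj A L E ϖ * Z) {m : ℕ} (hm : m < p) :
    jj A L F ϖ ^ m * Algebra.trace F E (Z ^ m) = (-1) ^ m * (p : F) := by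
  have h1 : algebraMap F E (jj A L F ϖ ^ m) * Z ^ m = (y + -1) ^ m := by
    rw [map_pow, algebraMap_jj, ← mul_pow, hyZ]; ring
  have h2 : jj A L F ϖ ^ m * Algebra.trace F E (Z ^ m) = Algebra.trace F E ((y + -1) ^ m) := by
    rw [← h1, ← Algebra.smul_def, map_smul, smul_eq_mul]
  rw [h2, add_pow, map_sum, Finset.sum_eq_single 0]
  · have e : y ^ 0 * (-1 : E) ^ (m - 0) * ((m.choose 0 : ℕ) : E) = algebraMap F E ((-1) ^ m) := by
      simp
    rw [e, Algebra.trace_algebraMap, Module.finrank_eq_card_basis b, Fintype.card_fin]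
    simp [mul_comm]
  · intro k hk hk0
    have hk' := Finset.mem_range.mp hk
    have e : y ^ k * (-1 : E) ^ (m - k) * ((m.choose k : ℕ) : E) =
        ((-1 : F) ^ (m - k) * ((m.choose k : ℕ) : F)) • y ^ k := by
      rw [Algebra.smul_def]; simp; ring
    rw [e, map_smul, trace_pow_eq_zero_of_lt hy b hb (Nat.pos_of_ne_zero hk0) (by omega), smul_zero]
  · intro h
    exact absurd (Finset.mem_range.mpr (Nat.succ_pos m)) h

/-- (c): `Tr(Z^m) = (-1)^(m+1) ϖ^(p-1-m) u⁻¹` -/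
theorem as_trace {p : ℕ} {ϖ : A} (D : PiData A p ϖ) {ui : A} (hui : asQ p ϖ * ui = 1)
    {c₀ : F} {y Z : E} (hy : y ^ p = algebraMap F E c₀)
    (b : Module.Basis (Fin p) F E) (hb : ∀ a, b a = y ^ (a : ℕ))
    (hyZ : y = 1 + jj A L E ϖ * Z) {m : ℕ} (hm : m < p) :
    Algebra.trace F E (Z ^ m) = jj A L F ((-1) ^ (m + 1) * ϖ ^ (p - 1 - m) * ui) := by
  have h1 := as_trace_aux D.prime.pos hy b hb hyZ hm
  have h2 : (p : F) = jj A L F (-(ϖ ^ (p - 1) * ui)) := by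
    rw [← D.natCast_eq hui, map_natCast]
  have h0 : jj A L F ϖ ^ m ≠ 0 :=
    pow_ne_zero _ fun h => D.pi_ne (jj_injective (by rw [h, map_zero]))
  apply mul_left_cancel₀ h0
  rw [h1, h2]
  have e : ϖ ^ (p - 1) = ϖ ^ m * ϖ ^ (p - 1 - m) := by
    rw [← pow_add]; congr 1; omega
  rw [e]
  simp only [map_neg, map_mul, map_pow, map_one]
  ring

theorem as_trace_small {p : ℕ} {ϖ : A} (D : PiData A p ϖ)
    {c₀ : F} {y Z : E} (hy : y ^ p = algebraMap F E c₀)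
    (b : Module.Basis (Fin p) F E) (hb : ∀ a, b a = y ^ (a : ℕ))
    (hyZ : y = 1 + jj A L E ϖ * Z) {m : ℕ} (hm : m < p - 1) :
    Sm0 A τ F (Algebra.trace F E (Z ^ m)) := by
  obtain ⟨ui, hui⟩ := D.exists_inv
  rw [as_trace D hui hy b hb hyZ (by omega)]
  have e : (-1 : A) ^ (m + 1) * ϖ ^ (p - 1 - m) * ui = ϖ * ((-1) ^ (m + 1) * ϖ ^ (p - 2 - m) * ui) := by
    have : p - 1 - m = (p - 2 - m) + 1 := by omega
    rw [this, pow_succ]; ring
  rw [e, map_mul]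
  exact Sm0_jj_mul τ D.mem (jj_mem_C0 τ _)

theorem as_trace_top {p : ℕ} {ϖ : A} (D : PiData A p ϖ) (hodd : Odd p)
    {c₀ : F} {y Z : E} (hy : y ^ p = algebraMap F E c₀)
    (b : Module.Basis (Fin p) F E) (hb : ∀ a, b a = y ^ (a : ℕ))
    (hyZ : y = 1 + jj A L E ϖ * Z) :
    Sm0 A τ F (Algebra.trace F E (Z ^ (p - 1)) + 1) := by
  obtain ⟨ui, hui⟩ := D.exists_inv
  have hp := D.prime.pos
  rw [as_trace D hui hy b hb hyZ (by omega), Nat.sub_add_cancel hp, hodd.neg_one_pow, Nat.sub_self,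
    pow_zero]
  have e : jj A L F (-1 * 1 * ui) + 1 = jj A L F ϖ * jj A L F (asQ' p ϖ * ui) := by
    rw [← map_one (jj A L F), ← map_add, ← map_mul]
    congr 1
    have := asQ_eq D.prime ϖ
    rw [this] at hui
    linear_combination -hui
  rw [e]
  exact Sm0_jj_mul τ D.mem (jj_mem_C0 τ _)

/-- the power basis `Z^l` -/
theorem exists_basis_Z {p : ℕ} {ϖ : A} {y Z : E}
    (b : Module.Basis (Fin p) F E) (hb : ∀ a, b a = y ^ (a : ℕ))
    (hyZ : y = 1 + jj A L E ϖ * Z) :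
    ∃ bZ : Module.Basis (Fin p) F E, ∀ l, bZ l = Z ^ (l : ℕ) := by
  have hspan : ⊤ ≤ Submodule.span F (Set.range fun l : Fin p => Z ^ (l : ℕ)) := by
    rw [← b.span_eq, Submodule.span_le]
    rintro _ ⟨a, rfl⟩
    rw [hb, hyZ, add_comm, add_pow]
    refine Submodule.sum_mem _ fun k hk => ?_
    have hk' := Finset.mem_range.mp hk
    have e : (jj A L E ϖ * Z) ^ k * 1 ^ ((a : ℕ) - k) * (((a : ℕ).choose k : ℕ) : E) =
        (jj A L F ϖ ^ k * (((a : ℕ).choose k : ℕ) : F)) • Z ^ k := by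
      rw [Algebra.smul_def, map_mul, map_pow, algebraMap_jj, map_natCast, mul_pow]; ring
    rw [e]
    exact Submodule.smul_mem _ _ (Submodule.subset_span ⟨⟨k, by have := a.2; omega⟩, rfl⟩)
  have hcard : Fintype.card (Fin p) = Module.finrank F E := by
    rw [Module.finrank_eq_card_basis b]
  exact ⟨basisOfTopLeSpanOfCardEqFinrank _ hspan hcard,
    fun l => by rw [coe_basisOfTopLeSpanOfCardEqFinrank]⟩

end Trace

section Core

variable {F : Type*} [Field F] [Algebra L F] [FiniteDimensional L F]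
variable {E : Type*} [Field E] [Algebra L E] [Algebra F E] [IsScalarTower L F E]

theorem as_core [IsAlgClosed K] [CharZero K] (hA : Arch A) (hτ : Transcendental K τ)
    (hgen : IsGen K τ) {ι : Type*} [Fintype ι] (o : ONB A τ F ι) (hfg : FgBar A τ F)
    {p : ℕ} {ϖ : A} (D : PiData A p ϖ) (hp2 : p ≠ 2) {c' : A}
    (hc' : c' ∈ IsLocalRing.maximalIdeal A) (c₀ c₁ w x₀ x₁ yw : F)
    (hx₀ : x₀ ∈ C0 A τ F) (hx₁ : x₁ ∈ C0 A τ⁻¹ F) (hyw : yw ∈ VV A τ F)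
    (hc₀ : c₀ = 1 + jj A L F ϖ ^ p * (jj A L F c' * x₀))
    (hc₁ : c₁ = 1 + jj A L F ϖ ^ p * (jj A L F c' * x₁))
    (hw : w = 1 + jj A L F ϖ * (jj A L F c' * yw)) (hwc : w ^ p * c₀ = c₁)
    (y : E) (hy : y ^ p = algebraMap F E c₀)
    (b : Module.Basis (Fin p) F E) (hb : ∀ a, b a = y ^ (a : ℕ)) : False := by
  classical
  have : FiniteDimensional F E := Module.Finite.of_basis b
  have : FiniteDimensional L E := FiniteDimensional.trans L F E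
  have hodd : Odd p := D.prime.odd_of_ne_two hp2
  have hp3 : 3 ≤ p := by
    have := D.prime.two_le
    omega
  set π : E := jj A L E ϖ with hπ
  have hπ0 : π ≠ 0 := fun h => D.pi_ne (jj_injective (by rw [← hπ, h, map_zero]))
  set Z₀ : E := (y - 1) / π with hZ₀
  set Z₁ : E := (algebraMap F E w * y - 1) / π with hZ₁
  have hyZ₀ : y = 1 + π * Z₀ := by rw [hZ₀]; field_simp; ring
  have hyZ₁ : algebraMap F E w * y = 1 + π * Z₁ := by rw [hZ₁]; field_simp; ring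
  have hE₀ : (1 + π * Z₀) ^ p = 1 + π ^ p * (jj A L E c' * algebraMap F E x₀) := by
    rw [← hyZ₀, hy, hc₀]
    simp only [map_add, map_one, map_mul, map_pow, algebraMap_jj]
    rfl
  have hE₁ : (1 + π * Z₁) ^ p = 1 + π ^ p * (jj A L E c' * algebraMap F E x₁) := by
    rw [← hyZ₁, mul_pow, hy, ← map_pow, ← map_mul, hwc, hc₁]
    simp only [map_add, map_one, map_mul, map_pow, algebraMap_jj]
    rfl
  obtain ⟨hZ₀C, hZ₀S⟩ := as_mem D τ hc' (algebraMap_mem_C0_of_mem hx₀) hE₀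
  obtain ⟨hZ₁C, hZ₁S⟩ := as_mem D τ⁻¹ hc' (algebraMap_mem_C0_of_mem hx₁) hE₁
  have ht1 : ∀ m, m < p - 1 → Sm0 A τ F (Algebra.trace F E (Z₀ ^ m)) :=
    fun m hm => as_trace_small D hy b hb hyZ₀ hm
  have ht2 : Sm0 A τ F (Algebra.trace F E (Z₀ ^ (p - 1)) + 1) := as_trace_top D hodd hy b hb hyZ₀
  obtain ⟨bZ, hbZ⟩ := exists_basis_Z (A := A) (L := L) (ϖ := ϖ) b hb hyZ₀
  obtain ⟨o', ho'⟩ := ONB.as hodd hZ₀C ht1 ht2 hτ hgen o bZ hbZ
  have hfgE : FgBar A τ E := fgBar_as hfg hodd hZ₀C ht1 ht2 bZ hbZ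
  obtain ⟨wb⟩ := exists_wbasis hτ hgen o' hfgE
  have hfgC : FgC0 A τ E := wb.fgC0 hτ hgen hA
  have hZ₀V : Z₀ ∈ VV A τ E := C0_le_VV A τ E hZ₀C
  have hZ₁V : Z₁ ∈ VV A τ E := by rw [← VV_inv A hτ]; exact C0_le_VV A τ⁻¹ E hZ₁C
  have hyV : y ∈ VV A τ E := by
    rw [hyZ₀]
    exact (VV A τ E).add_mem (VV A τ E).one_mem ((VV A τ E).mul_mem (jj_mem_VV τ _) hZ₀V)
  have h01 : SmV A τ E (Z₀ - Z₁) := by
    have e : Z₀ - Z₁ = jj A L E c' * (-(algebraMap F E yw * y)) := by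
      rw [hZ₀, hZ₁, hw]
      simp only [map_add, map_one, map_mul, algebraMap_jj]
      rw [← hπ]
      field_simp
      ring
    rw [e]
    exact SmV_jj_mul τ hc' ((VV A τ E).neg_mem
      ((VV A τ E).mul_mem (algebraMap_mem_VV_of_mem hyw) hyV))
  have hidem : ∀ Z : E, (1 - Z ^ (p - 1)) * (1 - Z ^ (p - 1)) - (1 - Z ^ (p - 1)) =
      Z ^ (p - 2) * (Z ^ p - Z) := by
    intro Z
    obtain ⟨n, rfl⟩ : ∃ n, p = n + 2 := ⟨p - 2, by omega⟩
    rw [show n + 2 - 1 = n + 1 by omega, show n + 2 - 2 = n by omega]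
    ring
  have hcontra : ∀ (x : E) (a : Fin p) (r : F), SmV A τ E x → bZ.repr x a = r → r * r = 1 →
      False := by
    intro x a r hx hxa hr
    apply not_SmV_one (E := F) A hτ hgen
    have h3 : SmV A τ F r := o.SmV_of_repr hτ fun i => by
      have h4 := o'.repr_SmG hτ hx (i, a)
      rw [ho', Module.Basis.smulTower_repr, hxa] at h4
      exact h4
    have := SmV.mul_left A h3 h3.mem_VV
    rwa [hr] at this
  have hone : (1 : E) = bZ ⟨0, D.prime.pos⟩ := by rw [hbZ]; simp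
  have htop : Z₀ ^ (p - 1) = bZ ⟨p - 1, by omega⟩ := by rw [hbZ]
  have hne : (⟨0, D.prime.pos⟩ : Fin p) ≠ ⟨p - 1, by omega⟩ := by
    intro h
    have := congrArg Fin.val h
    simp only at this
    omega
  rcases conn hτ hgen hA hfgC
    ((C0 A τ E).sub_mem (C0 A τ E).one_mem ((C0 A τ E).pow_mem hZ₀C (p - 1)))
    ((C0 A τ⁻¹ E).sub_mem (C0 A τ⁻¹ E).one_mem ((C0 A τ⁻¹ E).pow_mem hZ₁C (p - 1)))
    (by rw [hidem]; exact Sm0.mul_left A hZ₀S ((C0 A τ E).pow_mem hZ₀C _))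
    (by rw [hidem]; exact Sm0.mul_left A hZ₁S ((C0 A τ⁻¹ E).pow_mem hZ₁C _))
    (by
      have := SmV.neg A (SmV_pow_sub_pow hZ₀V hZ₁V h01 (p - 1))
      convert this using 1
      ring) with h | h
  · refine hcontra _ ⟨0, D.prime.pos⟩ 1 h.SmV ?_ (one_mul 1)
    rw [htop, hone, map_sub, Finsupp.sub_apply, bZ.repr_self, bZ.repr_self, Finsupp.single_apply,
      Finsupp.single_apply, if_pos rfl, if_neg hne.symm, sub_zero]
  · refine hcontra _ ⟨p - 1, by omega⟩ (-1) h.SmV ?_ (by ring)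
    have e : (1 : E) - Z₀ ^ (p - 1) - 1 = -bZ ⟨p - 1, by omega⟩ := by rw [htop]; ring
    rw [e, map_neg, Finsupp.neg_apply, bZ.repr_self, Finsupp.single_apply, if_pos rfl]

end Core

variable {F : Type*} [Field F] [Algebra L F] [FiniteDimensional L F]

section Cong

omit [FiniteDimensional L F]

theorem CongV.iff_jj {a : A} {x : F} : CongV A τ F a x ↔ ∃ y ∈ VV A τ F, x = jj A L F a * y := by
  unfold CongV
  simp only [evE_C_eq]

theorem CongV.mem_VV {a : A} {x : F} (h : CongV A τ F a (x - 1)) : x ∈ VV A τ F := by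
  obtain ⟨y, hy, e⟩ := CongV.iff_jj.mp h
  have : x = 1 + jj A L F a * y := by rw [← e]; ring
  rw [this]
  exact (VV A τ F).add_mem (VV A τ F).one_mem ((VV A τ F).mul_mem (jj_mem_VV τ _) hy)

theorem CongV.mul {a : A} {x y : F} (hx : CongV A τ F a (x - 1)) (hy : CongV A τ F a (y - 1)) :
    CongV A τ F a (x * y - 1) := by
  have hyV := hy.mem_VV
  obtain ⟨x', hx', ex⟩ := CongV.iff_jj.mp hx
  obtain ⟨y', hy', ey⟩ := CongV.iff_jj.mp hy
  refine CongV.iff_jj.mpr ⟨x' * y + y', (VV A τ F).add_mem ((VV A τ F).mul_mem hx' hyV) hy', ?_⟩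
  linear_combination y * ex + ey

theorem CongV.SmV {a : A} (ha : a ∈ IsLocalRing.maximalIdeal A) {x : F} (h : CongV A τ F a x) :
    SmV A τ F x := by
  obtain ⟨y, hy, e⟩ := h
  exact ⟨a, ha, y, hy, e⟩

/-- (a) -/
theorem CongV.pow {p : ℕ} {ϖ : A} (D : PiData A p ϖ) {c' : A} {f : F}
    (h : CongV A τ F (ϖ * c') (f - 1)) : CongV A τ F (ϖ ^ p * c') (f ^ p - 1) := by
  obtain ⟨ui, hui⟩ := D.exists_inv
  obtain ⟨y, hy, e⟩ := CongV.iff_jj.mp h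
  set π : F := jj A L F ϖ with hπ
  set γ : F := jj A L F c' with hγ
  have hf : f = 1 + π * (γ * y) := by
    rw [map_mul] at e
    linear_combination e
  have hπ1 : (1 + π) ^ p = 1 := by
    rw [hπ, ← map_one (jj A L F), ← map_add, ← map_pow, D.pow]
  have hu : asQ p π * jj A L F ui = 1 := by
    rw [hπ, ← map_asQ, ← map_mul, hui, map_one]
  have h1 := as_pi_pow D.prime hπ1
  have hπV : π ∈ VV A τ F := jj_mem_VV τ _
  have hγV : γ ∈ VV A τ F := jj_mem_VV τ _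
  refine CongV.iff_jj.mpr ⟨-(jj A L F ui * (y * asQ p (π * (γ * y)))) + γ ^ (p - 1) * y ^ p,
    (VV A τ F).add_mem ((VV A τ F).neg_mem ((VV A τ F).mul_mem (jj_mem_VV τ _)
      ((VV A τ F).mul_mem hy (asQ_mem _ p ((VV A τ F).mul_mem hπV ((VV A τ F).mul_mem hγV hy))))))
      ((VV A τ F).mul_mem ((VV A τ F).pow_mem hγV _) ((VV A τ F).pow_mem hy _)), ?_⟩
  have hγp : γ ^ p = γ ^ (p - 1) * γ := by rw [← pow_succ, Nat.sub_add_cancel D.prime.pos]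
  rw [hf, one_add_pow_eq D.prime, map_mul, map_pow, ← hπ, ← hγ, mul_pow, mul_pow, hγp]
  linear_combination (jj A L F ui * γ * y * asQ p (π * (γ * y))) * h1 -
    ((p : F) * π * γ * y * asQ p (π * (γ * y))) * hu

end Cong

/-- [S33/CECHP] -/
theorem cech_p [IsAlgClosed K] [CharZero K] (hA : Arch A) (hτ : Transcendental K τ) (hgen : IsGen K τ)
    {ι : Type*} [Fintype ι] (o : ONB A τ F ι) (hfg : FgBar A τ F)
    (p : ℕ) (hp : p.Prime) (hp2 : p ≠ 2) (ζ : K) (hζ : IsPrimitiveRoot ζ p)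
    (ϖ : A) (hϖ : (ϖ : K) = ζ - 1) (hϖm : ϖ ∈ IsLocalRing.maximalIdeal A)
    (c' : A) (hc' : c' ∈ IsLocalRing.maximalIdeal A) (v f₀ f₁ : F)
    (hv : CongV A τ F (ϖ ^ p * c') (v - 1)) (h₀ : CongV A τ F (ϖ * c') (f₀ - 1))
    (h₁ : CongV A τ F (ϖ * c') (f₁ - 1))
    (hc₀ : f₀ ^ p * v ∈ C0 A τ F) (hc₁ : f₁ ^ p * v ∈ C0 A τ⁻¹ F) : ∃ g : F, v = g ^ p := by
  have hϖ0 : ϖ ≠ 0 := by
    intro h
    rw [h] at hϖ
    exact hζ.ne_one hp.one_lt (sub_eq_zero.mp hϖ.symm)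
  have D : PiData A p ϖ := by
    refine ⟨hp, Subtype.ext ?_, mul_ne_zero ?_ hϖ0, hϖm⟩
    · push_cast
      rw [hϖ, add_sub_cancel, hζ.pow_eq_one]
    · exact_mod_cast hp.ne_zero
  by_cases hc0 : c' = 0
  · refine ⟨1, ?_⟩
    obtain ⟨y, -, e⟩ := CongV.iff_jj.mp hv
    rw [hc0, mul_zero, map_zero, zero_mul] at e
    rw [one_pow]
    exact sub_eq_zero.mp e
  by_contra hcon
  push Not at hcon
  have hτ' := transcendental_inv' hτ
  have hm : ϖ * c' ∈ IsLocalRing.maximalIdeal A := Ideal.mul_mem_right _ _ hϖm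
  have hf₀ : f₀ ≠ 0 := ne_zero_of_SmV_sub_one hτ hgen (h₀.SmV hm)
  set c₀ : F := f₀ ^ p * v with hc₀def
  have hcon' : ∀ g : F, g ^ p ≠ c₀ := by
    intro g hg
    apply hcon (g / f₀)
    rw [div_pow, hg, hc₀def]
    field_simp
  have hirr : Irreducible (X ^ p - C c₀ : F[X]) := X_pow_sub_C_irreducible_of_prime hp hcon'
  have : Fact (Irreducible (X ^ p - C c₀ : F[X])) := ⟨hirr⟩
  have hmonic : (X ^ p - C c₀ : F[X]).Monic := monic_X_pow_sub_C c₀ hp.ne_zero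
  have hdeg : (X ^ p - C c₀ : F[X]).natDegree = p := natDegree_X_pow_sub_C
  let pb := AdjoinRoot.powerBasis' hmonic
  have hdim : pb.dim = p := hdeg
  let b : Module.Basis (Fin p) F (AdjoinRoot (X ^ p - C c₀ : F[X])) := pb.basis.reindex (finCongr hdim)
  -- (a)
  have hne : ϖ ^ p * c' ≠ 0 := mul_ne_zero (pow_ne_zero _ hϖ0) hc0
  obtain ⟨x₀, hx₀V, ex₀⟩ := CongV.iff_jj.mp ((h₀.pow D).mul hv)
  obtain ⟨x₁, hx₁V, ex₁⟩ := CongV.iff_jj.mp ((h₁.pow D).mul hv)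
  have hx₀ : x₀ ∈ C0 A τ F := by
    refine mem_C0_of_jj_mul hτ hne ?_ hx₀V
    rw [← ex₀]
    exact (C0 A τ F).sub_mem hc₀ (C0 A τ F).one_mem
  have hx₁ : x₁ ∈ C0 A τ⁻¹ F := by
    refine mem_C0_of_jj_mul hτ' hne ?_ (by rw [VV_inv A hτ]; exact hx₁V)
    rw [← ex₁]
    exact (C0 A τ⁻¹ F).sub_mem hc₁ (C0 A τ⁻¹ F).one_mem
  have hinv : CongV A τ F (ϖ * c') (f₀⁻¹ - 1) := by
    obtain ⟨y, hy, e⟩ := CongV.iff_jj.mp h₀
    refine CongV.iff_jj.mpr ⟨-(f₀⁻¹ * y), (VV A τ F).neg_mem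
      ((VV A τ F).mul_mem (o.inv_mem_VV hτ hgen (h₀.SmV hm)).1 hy), ?_⟩
    have : f₀⁻¹ - 1 = -(f₀⁻¹ * (f₀ - 1)) := by field_simp; ring
    rw [this, e]; ring
  obtain ⟨yw, hyw, ew⟩ := CongV.iff_jj.mp (h₁.mul hinv)
  refine as_core (E := AdjoinRoot (X ^ p - C c₀ : F[X])) hA hτ hgen o hfg D hp2 hc' c₀ (f₁ ^ p * v)
    (f₁ * f₀⁻¹) x₀ x₁ yw hx₀ hx₁ hyw ?_ ?_ ?_ ?_ (AdjoinRoot.root _) ?_ b ?_
  · rw [map_mul, map_pow] at ex₀
    linear_combination ex₀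
  · rw [map_mul, map_pow] at ex₁
    linear_combination ex₁
  · rw [map_mul] at ew
    linear_combination ew
  · rw [hc₀def, mul_pow, inv_pow, mul_assoc, ← mul_assoc (f₀ ^ p)⁻¹,
      inv_mul_cancel₀ (pow_ne_zero p hf₀), one_mul]
  · have := AdjoinRoot.eval₂_root (X ^ p - C c₀ : F[X])
    rw [eval₂_sub, eval₂_pow, eval₂_X, eval₂_C, sub_eq_zero] at this
    exact this
  · intro a
    simp [b, pb, PowerBasis.coe_basis]

end Fermat.Agent.S33
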